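import Fermat.Agent.H22.ES.KLModel

/-!
# P-ES / KL-M-TR (row 496): the coordinate is transcendental over `A₀`

* `kltr_transcendental_of_order_ne_zero` : a Laurent series of nonzero order over a field is
  transcendental over the field of constants (Mathlib only).
* `kltr_order_coeffEmb` : `coeffEmb` preserves the order.
* `modelTranscendental_of_order_ne_zero` : `ModelTranscendentalStatement N x₀` for every
  `x₀ : LaurentSeries ℚ` of nonzero order (any Hauptmodul with a simple pole or zero at `∞`).
* `modelTranscendental_jq` : `ModelTranscendentalStatement N jq`.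
-/

set_option autoImplicit false

noncomputable section

namespace Fermat.Agent.H58

open Polynomial ModularCurve

/-- Coefficients of a scalar multiple (for the algebra structure of Laurent series). -/
theorem kltr_coeff_algebra_smul {K : Type*} [Field K] (c : K) (x : LaurentSeries K) (m : ℤ) :
    (@HSMul.hSMul K (LaurentSeries K) (LaurentSeries K)
      (@instHSMul K (LaurentSeries K) Algebra.toSMul) c x).coeff m = c * x.coeff m := by
  rw [Algebra.smul_def, ModularCurve.algebraMap_laurentSeries_eq_single,
    HahnSeries.coeff_single_mul, sub_zero]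

/-- A Laurent series of negative order over a field is transcendental over the constants. -/
theorem kltr_transcendental_of_order_neg {K : Type*} [Field K] (f : LaurentSeries K)
    (hf : f.order < 0) : Transcendental K f := by
  have hf0 : f ≠ 0 := by
    rintro rfl
    simp at hf
  rintro ⟨P, hP0, hP⟩
  obtain ⟨n, hn⟩ : ∃ n, n = P.natDegree := ⟨_, rfl⟩
  have hlead : P.coeff n ≠ 0 := by
    rw [hn]
    exact Polynomial.leadingCoeff_ne_zero.2 hP0
  have hcoeff : (Polynomial.aeval f P).coeff (n • f.order) ≠ 0 := by
    rw [Polynomial.aeval_eq_sum_range, ← hn, HahnSeries.coeff_sum, Finset.sum_range_succ,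
      Finset.sum_eq_zero, zero_add]
    · rw [kltr_coeff_algebra_smul]
      refine mul_ne_zero hlead ?_
      rw [← HahnSeries.order_pow]
      exact fun h => pow_ne_zero _ hf0 (HahnSeries.coeff_order_eq_zero.1 h)
    · intro i hi
      rw [kltr_coeff_algebra_smul]
      have hi' : i < n := Finset.mem_range.1 hi
      have : (f ^ i).coeff (n • f.order) = 0 := by
        apply HahnSeries.coeff_eq_zero_of_lt_order
        rw [HahnSeries.order_pow]
        simp only [nsmul_eq_mul]
        have h1 : (i : ℤ) < (n : ℤ) := by exact_mod_cast hi'
        nlinarith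
      rw [this, mul_zero]
  rw [hP] at hcoeff
  exact hcoeff rfl

/-- A Laurent series of nonzero order over a field is transcendental over the constants. -/
theorem kltr_transcendental_of_order_ne_zero {K : Type*} [Field K] (f : LaurentSeries K)
    (hf : f.order ≠ 0) : Transcendental K f := by
  rcases lt_or_gt_of_ne hf with h | h
  · exact kltr_transcendental_of_order_neg f h
  · have hf0 : f ≠ 0 := by
      rintro rfl
      simp at h
    have hinv : (f⁻¹).order < 0 := by
      have h1 : (f * f⁻¹).order = f.order + (f⁻¹).order :=
        HahnSeries.order_mul hf0 (inv_ne_zero hf0)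
      rw [mul_inv_cancel₀ hf0, HahnSeries.order_one] at h1
      omega
    intro halg
    exact kltr_transcendental_of_order_neg f⁻¹ hinv halg.inv

/-- `coeffEmb` preserves the order. -/
theorem kltr_order_coeffEmb (L : Type*) [Field L] [Algebra ℚ L] (x : LaurentSeries ℚ) :
    (coeffEmb L x).order = x.order := by
  by_cases hx : x = 0
  · subst hx
    simp
  have hinj : Function.Injective (algebraMap ℚ L) := (algebraMap ℚ L).injective
  have h1 : (coeffEmb L x).coeff x.order ≠ 0 := by
    rw [coeffEmb_coeff]
    intro h
    exact hx (HahnSeries.coeff_order_eq_zero.1 (hinj (by rw [h, map_zero])))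
  have hx' : coeffEmb L x ≠ 0 := by
    intro h
    rw [h] at h1
    exact h1 rfl
  have h2 : x.coeff (coeffEmb L x).order ≠ 0 := by
    intro h
    apply hx'
    apply HahnSeries.coeff_order_eq_zero.1
    rw [coeffEmb_coeff, h, map_zero]
  exact le_antisymm (HahnSeries.order_le_of_coeff_ne_zero h1)
    (HahnSeries.order_le_of_coeff_ne_zero h2)

/-- **KL-M-TR, general form**: every coordinate whose `q`-expansion has nonzero order is
transcendental over `A₀`. -/
theorem modelTranscendental_of_order_ne_zero (N : ℕ) (x₀ : LaurentSeries ℚ)
    (hx₀ : x₀.order ≠ 0) : Fermat.Agent.H22.KL.ModelTranscendentalStatement N x₀ := by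
  intro K₁ _ _ A₀ _ _ _ _ _ _ x hx
  have h1 : Transcendental K₁ (x : LaurentSeries K₁) := by
    rw [hx]
    apply kltr_transcendental_of_order_ne_zero
    rw [kltr_order_coeffEmb]
    exact hx₀
  have h2 : Transcendental K₁ x := by
    intro halg
    have h3 : IsAlgebraic K₁
        (algebraMap (Fermat.Agent.H22.KL.ModelField K₁ N) (LaurentSeries K₁) x) :=
      halg.algebraMap
    exact h1 h3
  exact h2.restrictScalars (IsFractionRing.injective A₀ K₁)

/-- The order of `jq` is `-1`, in particular nonzero. -/
theorem kltr_order_jq_ne_zero : (jq : LaurentSeries ℚ).order ≠ 0 := by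
  have hc : (jq : LaurentSeries ℚ).coeff (-1 : ℤ) ≠ 0 := by
    rw [ModularCurve.coeff_jq_neg_one]
    exact one_ne_zero
  have := HahnSeries.order_le_of_coeff_ne_zero hc
  omega

/-- **KL-M-TR** (row 496): `x = j` is transcendental over `A₀`. -/
theorem modelTranscendental_jq (N : ℕ) [NeZero N] :
    Fermat.Agent.H22.KL.ModelTranscendentalStatement N jq :=
  modelTranscendental_of_order_ne_zero N jq kltr_order_jq_ne_zero

end Fermat.Agent.H58

end
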