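import Fermat.Agent.H58.KL.ModelTr
import Fermat.Agent.H17.ESD.PsiTwo
import Fermat.Agent.H1.ESD.T3Laurent

/-!
# P-ES / KL-M-TR for the Hauptmoduln `t₂`, `t₃` (inputs (D1)/TR of the key lemma at `ℓ = 3, 2`)

* `order_t3` : `(t3 ℚ).order = -1`-type statement in the form `≠ 0`;
* `order_t2S_ne_zero` : from the modular relation `j t₂² = (t₂ + 256)³`;
* `modelTranscendental_t2 N : ModelTranscendentalStatement N (t2S ℚ)`;
* `modelTranscendental_t3 N : ModelTranscendentalStatement N (t3 ℚ)`.
-/

set_option autoImplicit false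

noncomputable section

namespace Fermat.Agent.H58

open Polynomial ModularCurve

/-- A Laurent series `q⁻¹ · u` with `u` a power series with nonzero constant coefficient has
nonzero order. -/
theorem kltr_order_single_mul_ne_zero {k : Type*} [Field k] (u : PowerSeries k)
    (hu : PowerSeries.constantCoeff u ≠ 0) :
    (HahnSeries.single (-1 : ℤ) (1 : k) * HahnSeries.ofPowerSeries ℤ k u).order ≠ 0 := by
  have hc : (HahnSeries.single (-1 : ℤ) (1 : k) * HahnSeries.ofPowerSeries ℤ k u).coeff (-1 : ℤ)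
      ≠ 0 := by
    rw [HahnSeries.coeff_single_mul, one_mul]
    have h0 : ((-1 : ℤ) - (-1)) = ((0 : ℕ) : ℤ) := by norm_num
    rw [h0, HahnSeries.ofPowerSeries_apply_coeff, PowerSeries.coeff_zero_eq_constantCoeff]
    exact hu
  have := HahnSeries.order_le_of_coeff_ne_zero hc
  omega

/-- The Hauptmodul `t₃` over `ℚ` has nonzero order. -/
theorem kltr_order_t3_ne_zero : (Fermat.Agent.H1.ESD.t3 ℚ).order ≠ 0 := by
  rw [Fermat.Agent.H1.ESD.t3_eq_single_mul]
  apply kltr_order_single_mul_ne_zero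
  rw [← PowerSeries.coeff_zero_eq_constantCoeff, PowerSeries.coeff_map,
    PowerSeries.coeff_zero_eq_constantCoeff, Fermat.Agent.H1.ESD.constantCoeff_t3Num]
  simp

/-- **KL-M-TR for `x₀ = t₃`**. -/
theorem modelTranscendental_t3 (N : ℕ) :
    Fermat.Agent.H22.KL.ModelTranscendentalStatement N (Fermat.Agent.H1.ESD.t3 ℚ) :=
  modelTranscendental_of_order_ne_zero N _ kltr_order_t3_ne_zero

/-- A Laurent series `q⁻¹ · u` with `u` a power series with nonzero constant coefficient has
order `-1`. -/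
theorem kltr_order_single_mul {k : Type*} [Field k] (u : PowerSeries k)
    (hu : PowerSeries.constantCoeff u ≠ 0) :
    (HahnSeries.single (-1 : ℤ) (1 : k) * HahnSeries.ofPowerSeries ℤ k u).order = -1 := by
  have hc0 : (HahnSeries.ofPowerSeries ℤ k u).coeff ((0 : ℕ) : ℤ) ≠ 0 := by
    rw [HahnSeries.ofPowerSeries_apply_coeff, PowerSeries.coeff_zero_eq_constantCoeff]
    exact hu
  have hne : HahnSeries.ofPowerSeries ℤ k u ≠ 0 := by
    intro h
    rw [h] at hc0
    exact hc0 rfl
  have ho : (HahnSeries.ofPowerSeries ℤ k u).order = 0 := by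
    apply le_antisymm
    · exact_mod_cast HahnSeries.order_le_of_coeff_ne_zero hc0
    · by_contra hneg
      push Not at hneg
      exact (HahnSeries.coeff_order_eq_zero.not.2 hne)
        (ModularCurve.ofPowerSeries_coeff_of_neg u hneg)
  have hs : (HahnSeries.single (-1 : ℤ) (1 : k)) ≠ 0 := by
    intro h
    have := congrArg (fun f => HahnSeries.coeff f (-1 : ℤ)) h
    simp at this
  rw [HahnSeries.order_mul hs hne, HahnSeries.order_single one_ne_zero, ho]
  norm_num

/-- The Hauptmodul `t₂` over `ℚ` has nonzero order (from `j t₂² = (t₂ + 256)³`). -/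
theorem kltr_order_t2S_ne_zero : (Fermat.Agent.H17.ESD.t2S ℚ).order ≠ 0 := by
  intro h0
  have hrel := Fermat.Agent.H17.ESD.t2S_identity ℚ
  have hj : (jqModC ℚ).order = -1 := by
    rw [Fermat.Agent.H17.ESD.jqModC_eq]
    apply kltr_order_single_mul
    rw [Fermat.Agent.H17.ESD.Jk, ← PowerSeries.coeff_zero_eq_constantCoeff, PowerSeries.coeff_map,
      PowerSeries.coeff_zero_eq_constantCoeff]
    simp
  have hjne : jqModC ℚ ≠ 0 := by
    intro h
    rw [h] at hj
    simp at hj
  have h256 : (256 : LaurentSeries ℚ) ≠ 0 := by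
    rw [← map_ofNat (HahnSeries.C : ℚ →+* LaurentSeries ℚ) 256]
    intro h
    have := HahnSeries.C_injective (h.trans (map_zero _).symm)
    norm_num at this
  by_cases ht : Fermat.Agent.H17.ESD.t2S ℚ = 0
  · rw [ht] at hrel
    simp only [ne_eq, OfNat.ofNat_ne_zero, not_false_eq_true, zero_pow, mul_zero, zero_add] at hrel
    exact pow_ne_zero 3 h256 hrel.symm
  · have hL : (jqModC ℚ * Fermat.Agent.H17.ESD.t2S ℚ ^ 2).order = -1 := by
      rw [HahnSeries.order_mul hjne (pow_ne_zero 2 ht), HahnSeries.order_pow, hj, h0]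
      simp
    by_cases hs : Fermat.Agent.H17.ESD.t2S ℚ + 256 = 0
    · rw [hs] at hrel
      simp only [ne_eq, OfNat.ofNat_ne_zero, not_false_eq_true, zero_pow] at hrel
      exact (mul_ne_zero hjne (pow_ne_zero 2 ht)) hrel
    · rw [hrel, HahnSeries.order_pow] at hL
      simp only [nsmul_eq_mul, Nat.cast_ofNat] at hL
      omega

/-- **KL-M-TR for `x₀ = t₂`**. -/
theorem modelTranscendental_t2 (N : ℕ) :
    Fermat.Agent.H22.KL.ModelTranscendentalStatement N (Fermat.Agent.H17.ESD.t2S ℚ) :=
  modelTranscendental_of_order_ne_zero N _ kltr_order_t2S_ne_zero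

end Fermat.Agent.H58

end
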